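import Fermat.Agent.QuaternionTori.Classification
import Mathlib.Analysis.Real.Cardinality

/-!
# The endomorphisms of the tori

A `ℂ`-linear map commuting with the order is a scalar, and a scalar `c` preserves the lattice at
`z` exactly when `c = x₁₀ z + x₁₁` for an element `x` of the order fixing `z`.
-/

set_option autoImplicit false
set_option linter.unusedSectionVars false
set_option linter.style.haveILetI false

noncomputable section

open Matrix Set
open UpperHalfPlane hiding I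
open scoped MatrixGroups ComplexConjugate
open FA.Horocycle FA.QuaternionHecke

namespace FA.QuaternionTori

theorem exists_scalar (L : (Fin 2 → ℂ) →ₗ[ℂ] (Fin 2 → ℂ))
    (h : ∀ x ∈ order, ∀ v, L (act x v) = act x (L v)) : ∃ c : ℂ, ∀ v, L v = c • v := by
  have hj := h (hurMat (0, 0, 1, 0)) ⟨_, rfl⟩ ![1, 0]
  have hi := h (hurMat (0, 1, 0, 0)) ⟨_, rfl⟩ ![1, 0]
  have ej : act (hurMat (0, 0, 1, 0)) ![1, 0] = (Real.sqrt 3 : ℂ) • ![(1 : ℂ), 0] := by
    funext i
    fin_cases i <;> simp [act_apply, hurMat, realQuat]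
  have ei : act (hurMat (0, 1, 0, 0)) ![1, 0] = -![(0 : ℂ), 1] := by
    funext i
    fin_cases i <;> simp [act_apply, hurMat, realQuat]
  rw [ej, map_smul] at hj
  rw [ei, map_neg] at hi
  have hs : (Real.sqrt 3 : ℂ) ≠ 0 := Complex.ofReal_ne_zero.2 (by positivity)
  set a := L ![1, 0] with ha
  have h1 : a 1 = 0 := by
    have e := congrFun hj 1
    simp [act_apply, hurMat, realQuat] at e
    have e2 := (mul_eq_zero.1 (show (Real.sqrt 3 : ℂ) * (2 * a 1) = 0 by
      linear_combination e)).resolve_left hs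
    exact (mul_eq_zero.1 e2).resolve_left two_ne_zero
  have h2 : L ![0, 1] = a 0 • ![(0 : ℂ), 1] := by
    rw [neg_eq_iff_eq_neg.1 hi]
    funext i
    fin_cases i <;> simp [act_apply, hurMat, realQuat, h1]
  refine ⟨a 0, fun v => ?_⟩
  have hv : v = v 0 • ![(1 : ℂ), 0] + v 1 • ![(0 : ℂ), 1] := by
    funext i
    fin_cases i <;> simp
  conv_lhs => rw [hv]
  rw [map_add, map_smul, map_smul, ← ha, h2]
  funext i
  fin_cases i <;> simp [h1] <;> ring

/-- `x` fixes `z`. -/
def Fixes (x : Matrix (Fin 2) (Fin 2) ℝ) (z : ℂ) : Prop :=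
  (x 0 0 : ℂ) * z + (x 0 1 : ℂ) = z * ((x 1 0 : ℂ) * z + (x 1 1 : ℂ))

/-- `c` preserves the lattice at `z`. -/
def Preserves (c z : ℂ) : Prop := ∀ u ∈ torusLat z, c • u ∈ torusLat z

theorem preserves_iff {c z : ℂ} :
    Preserves c z ↔ ∃ x ∈ order, Fixes x z ∧ c = (x 1 0 : ℂ) * z + (x 1 1 : ℂ) := by
  constructor
  · intro h
    obtain ⟨x, hx, e⟩ := h _ (self_mem_orbitLat _)
    have e0 := congrFun e 0
    have e1 := congrFun e 1
    simp [act_apply, vec] at e0 e1
    exact ⟨x, hx, by rw [Fixes, ← e1, ← e0, mul_comm], e1⟩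
  · rintro ⟨x, hx, hf, rfl⟩ _ ⟨y, hy, rfl⟩
    refine ⟨y * x, mul_mem hy hx, ?_⟩
    rw [act_mul, ← act_smul]
    congr 1
    funext i
    fin_cases i <;> simp [act_apply, vec]
    rw [hf, mul_comm]

theorem preserves_intCast (n : ℤ) (z : ℂ) : Preserves (n : ℂ) z := fun u hu => by
  rw [Int.cast_smul_eq_zsmul]
  exact zsmul_mem hu n

theorem exists_quadratic {c z : ℂ} (h : Preserves c z) :
    ∃ T N : ℤ, c ^ 2 - T * c + N = 0 := by
  obtain ⟨x, hx, hf, hc⟩ := preserves_iff.1 h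
  obtain ⟨T, hT⟩ := exists_trace hx
  obtain ⟨N, hN⟩ := exists_det hx
  rw [trace_fin_two] at hT
  rw [det_fin_two] at hN
  refine ⟨T, N, ?_⟩
  rw [show ((T : ℤ) : ℂ) = ((T : ℝ) : ℂ) from (Complex.ofReal_intCast T).symm,
    show ((N : ℤ) : ℂ) = ((N : ℝ) : ℂ) from (Complex.ofReal_intCast N).symm, ← hT, ← hN, hc]
  push_cast
  rw [Fixes] at hf
  linear_combination -(x 1 0 : ℂ) * hf

theorem eq_scalar_of_real {x : Matrix (Fin 2) (Fin 2) ℝ} {z : ℂ} (hz : z.im ≠ 0)
    (hf : Fixes x z) (h10 : x 1 0 = 0) : x = x 1 1 • 1 := by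
  have him := congrArg Complex.im hf
  have hre := congrArg Complex.re hf
  simp [h10] at him hre
  have h0 : x 0 0 = x 1 1 := mul_right_cancel₀ hz (by linarith)
  have h01 : x 0 1 = 0 := by rw [h0] at hre; linarith
  ext i j
  fin_cases i <;> fin_cases j <;> simp [h0, h01, h10]

theorem integral_iff {z : ℂ} (hz : z.im ≠ 0) :
    (∀ c, Preserves c z → ∃ n : ℤ, c = n) ↔
      ∀ x ∈ order, Fixes x z → ∃ t : ℝ, x = t • 1 := by
  constructor
  · intro h x hx hf
    obtain ⟨n, hn⟩ := h _ (preserves_iff.2 ⟨x, hx, hf, rfl⟩)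
    have him := congrArg Complex.im hn
    simp at him
    exact ⟨_, eq_scalar_of_real hz hf (him.resolve_right hz)⟩
  · intro h c hc
    obtain ⟨x, hx, hf, rfl⟩ := preserves_iff.1 hc
    obtain ⟨t, rfl⟩ := h x hx hf
    obtain ⟨n, rfl⟩ := eq_intCast_of_scalar hx rfl
    exact ⟨n, by simp⟩

theorem im_ne_zero_of_preserves {c z : ℂ} (hz : z.im ≠ 0) (h : Preserves c z)
    (hc : ∀ n : ℤ, c ≠ n) : c.im ≠ 0 := fun h0 => by
  obtain ⟨x, hx, hf, rfl⟩ := preserves_iff.1 h
  simp at h0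
  have e := eq_scalar_of_real hz hf (h0.resolve_right hz)
  obtain ⟨n, hn⟩ := eq_intCast_of_scalar hx e
  exact hc n (by simp [h0.resolve_right hz, hn])

/-- **Most tori have no further endomorphisms.** -/
theorem exists_integral : ∃ z : ℍ, ∀ c, Preserves c z → ∃ n : ℤ, c = n := by
  set S : Set ℝ := range fun q : Quad => (hurMat q 0 0 - hurMat q 1 1) / (2 * hurMat q 1 0)
  obtain ⟨t, ht⟩ : ∃ t, t ∉ S := by
    by_contra! h
    exact Cardinal.not_countable_real ((countable_range _).mono fun t _ => h t)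
  refine ⟨⟨(t : ℂ) + Complex.I, by simp⟩, (integral_iff (by simp)).2 fun x hx hf => ?_⟩
  obtain ⟨q, rfl⟩ := hx
  by_cases h10 : hurMat q 1 0 = 0
  · exact ⟨_, eq_scalar_of_real (by simp) hf h10⟩
  refine absurd ⟨q, ?_⟩ ht
  have him := congrArg Complex.im hf
  simp at him
  show (hurMat q 0 0 - hurMat q 1 1) / (2 * hurMat q 1 0) = t
  rw [div_eq_iff (mul_ne_zero two_ne_zero h10)]
  linarith

theorem preserves_I : Preserves (-Complex.I) Complex.I :=
  (preserves_iff.2 ⟨hurMat (0, 1, 0, 0), ⟨_, rfl⟩, by simp [Fixes, hurMat, realQuat],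
    by simp [hurMat, realQuat]⟩)

end FA.QuaternionTori

end
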