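import Fermat.Agent.QuaternionTori.Lattice
import Fermat.Agent.CocompactForms.Chart
import Mathlib.GroupTheory.Index

/-!
# The classification of the tori

As left ideals are principal, a stable lattice consists of the multiples of one vector, which a
unit of norm `-1` brings into the form `c (z, 1)` with `z` in the upper half plane; `z` is unique
up to the units of norm one.
-/

set_option autoImplicit false
set_option linter.unusedSectionVars false
set_option linter.style.haveILetI false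

noncomputable section

open Matrix Set
open UpperHalfPlane hiding I
open scoped MatrixGroups ComplexConjugate
open FA.Horocycle FA.QuaternionHecke FA.CocompactForms

namespace FA.QuaternionTori

theorem act_zsmul (x : Matrix (Fin 2) (Fin 2) ℝ) (n : ℤ) (v : Fin 2 → ℂ) :
    act x (n • v) = n • act x v := by
  rw [← Int.cast_smul_eq_zsmul ℂ, act_smul, Int.cast_smul_eq_zsmul]

theorem im_act (x : Matrix (Fin 2) (Fin 2) ℝ) (v : Fin 2 → ℂ) :
    (act x v 0 * conj (act x v 1)).im = x.det * (v 0 * conj (v 1)).im := by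
  simp [act_apply, det_fin_two]
  ring

theorem indep_act {x : Matrix (Fin 2) (Fin 2) ℝ} (hx : x.det ≠ 0) {v : Fin 2 → ℂ} (hv : Indep v) :
    Indep (act x v) := by
  rw [Indep, im_act]
  exact mul_ne_zero hx hv

theorem indep_of_smul {c : ℂ} {v : Fin 2 → ℂ} (h : Indep (c • v)) : Indep v := fun h0 => h (by
  rw [Pi.smul_apply, Pi.smul_apply, smul_eq_mul, smul_eq_mul, map_mul,
    show c * v 0 * (conj c * conj (v 1)) = ((Complex.normSq c : ℝ) : ℂ) * (v 0 * conj (v 1)) by
      rw [← Complex.mul_conj]; ring, Complex.im_ofReal_mul, h0, mul_zero])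

theorem exists_indep (L : Submodule ℤ (Fin 2 → ℂ)) [DiscreteTopology L] [IsZLattice ℝ L] :
    ∃ v ∈ L, Indep v := by
  by_contra hno
  simp only [not_exists, not_and, Indep, not_not] at hno
  set B : (Fin 2 → ℂ) → (Fin 2 → ℂ) → ℝ := fun v w =>
    (v 0 * conj (w 1) + w 0 * conj (v 1)).im with hB
  have hadd : ∀ u v w, B u (v + w) = B u v + B u w := fun u v w => by simp [B]; ring
  have hsmul : ∀ (t : ℝ) u v, B u (t • v) = t * B u v := fun t u v => by simp [B]; ring
  have hsymm : ∀ u v, B u v = B v u := fun u v => by simp only [B, add_comm]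
  have hLL : ∀ u ∈ L, ∀ v ∈ L, B u v = 0 := fun u hu v hv => by
    have e := hno (u + v) (add_mem hu hv)
    have e1 := hno u hu
    have e2 := hno v hv
    simp only [Pi.add_apply, map_add, add_mul, mul_add, Complex.add_im] at e
    simp only [B, Complex.add_im]
    linarith
  have htop : ∀ u, u ∈ Submodule.span ℝ (L : Set (Fin 2 → ℂ)) := fun u => by
    rw [IsZLattice.span_top]
    trivial
  have hext : ∀ u, (∀ v ∈ L, B u v = 0) → ∀ v, B u v = 0 := fun u h v => by
    induction htop v using Submodule.span_induction with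
    | mem v hv => exact h v hv
    | zero => simpa using hsmul 0 u 0
    | add v w _ _ hv hw => rw [hadd, hv, hw, add_zero]
    | smul t v _ hv => rw [hsmul, hv, mul_zero]
  have h1 : ∀ u ∈ L, ∀ v, B u v = 0 := fun u hu => hext u (hLL u hu)
  have h2 : ∀ u v, B u v = 0 := fun u => hext u fun v hv => by
    rw [hsymm]
    exact h1 v hv u
  have h3 := h2 ![Complex.I, 0] ![0, 1]
  simp [B] at h3

theorem exists_mul_mem {v : Fin 2 → ℂ} (hv : Indep v) (L : Submodule ℤ (Fin 2 → ℂ))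
    [DiscreteTopology L] (hle : orbitLat v ≤ L) :
    ∃ N : ℕ, N ≠ 0 ∧ ∀ u ∈ L, (N : ℤ) • u ∈ orbitLat v := by
  set b := torBasis hv
  have hspan := orbitLat_eq_span hv
  haveI : DiscreteTopology L.toAddSubgroup := ‹DiscreteTopology L›
  have hfin : (ZSpan.fundamentalDomain b ∩ (L : Set (Fin 2 → ℂ))).Finite :=
    Metric.finite_isBounded_inter_isClosed DiscreteTopology.isDiscrete
      (ZSpan.fundamentalDomain_isBounded b)
      (AddSubgroup.isClosed_of_discrete (H := L.toAddSubgroup))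
  have hmem : ∀ u ∈ L, ZSpan.fract b u ∈ ZSpan.fundamentalDomain b ∩ (L : Set (Fin 2 → ℂ)) :=
    fun u hu => ⟨ZSpan.fract_mem_fundamentalDomain b u,
      sub_mem hu (hle (by rw [hspan]; exact (ZSpan.floor b u).2))⟩
  set H := (orbitLat v).toAddSubgroup.addSubgroupOf L.toAddSubgroup
  haveI := hfin.to_subtype
  haveI : Finite (L.toAddSubgroup ⧸ H) := Finite.of_injective
    (fun q => (⟨_, hmem _ q.out.2⟩ : ↥(ZSpan.fundamentalDomain b ∩ (L : Set (Fin 2 → ℂ)))))
    fun q r h => by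
      have e : -(q.out : Fin 2 → ℂ) + r.out ∈ Submodule.span ℤ (range b) :=
        (ZSpan.fract_eq_fract b _ _).1 (congrArg Subtype.val h)
      rw [← hspan] at e
      rw [← q.out_eq, ← r.out_eq]
      exact QuotientAddGroup.eq.2 e
  refine ⟨H.index, AddSubgroup.index_ne_zero_iff_finite.2 inferInstance, fun u hu => ?_⟩
  rw [natCast_zsmul]
  exact AddSubgroup.nsmul_index_mem H ⟨u, hu⟩

/-- **A stable lattice consists of the multiples of one vector.** -/
theorem exists_orbit (L : Submodule ℤ (Fin 2 → ℂ)) [DiscreteTopology L] [IsZLattice ℝ L]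
    (hst : IsStable L) : ∃ v, Indep v ∧ L = orbitLat v := by
  obtain ⟨w, hw, hwi⟩ := exists_indep L
  obtain ⟨N, hN, hmul⟩ := exists_mul_mem hwi L fun _ ⟨x, hx, e⟩ => e ▸ hst x hx w hw
  let I : AddSubgroup (Matrix (Fin 2) (Fin 2) ℝ) :=
    { carrier := {x | x ∈ order ∧ ∃ u ∈ L, act x w = (N : ℤ) • u}
      add_mem' := by
        rintro x y ⟨hx, u, hu, e⟩ ⟨hy, u', hu', e'⟩
        exact ⟨add_mem hx hy, u + u', add_mem hu hu', by rw [act_add, e, e', smul_add]⟩
      zero_mem' := ⟨zero_mem _, 0, zero_mem _, by rw [act_zero, smul_zero]⟩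
      neg_mem' := by
        rintro x ⟨hx, u, hu, e⟩
        exact ⟨neg_mem hx, -u, neg_mem hu, by rw [act_neg, e, smul_neg]⟩ }
  obtain ⟨g, ⟨hg, v, hv, hgv⟩, hgen⟩ := exists_generator I (fun x hx => hx.1) fun a ha x hx => by
    obtain ⟨hxo, u, hu, e⟩ := hx
    exact ⟨mul_mem ha hxo, act a u, hst a ha u hu, by rw [act_mul, e, act_zsmul]⟩
  have hN' : ((N : ℤ) : ℝ) ≠ 0 := by exact_mod_cast hN
  have hI : ((N : ℤ) : ℝ) • 1 ∈ I := ⟨intCast_smul_mem (one_mem _) N, w, hw, by
    rw [act_smul_real, act_one, Int.cast_smul_eq_zsmul]⟩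
  obtain ⟨q, hq, hqg⟩ := hgen _ hI
  have hdet : g.det ≠ 0 := fun h0 => by
    have e := congrArg Matrix.det hqg
    rw [det_smul, det_one, mul_one, det_mul, h0, mul_zero] at e
    exact pow_ne_zero _ hN' e
  refine ⟨v, indep_of_smul (c := ((N : ℤ) : ℂ)) ?_, le_antisymm (fun u hu => ?_) ?_⟩
  · rw [Int.cast_smul_eq_zsmul, ← hgv]
    exact indep_act hdet hwi
  · obtain ⟨x, hx, e⟩ := hmul u hu
    obtain ⟨q', hq', rfl⟩ := hgen x ⟨hx, u, hu, e.symm⟩
    refine ⟨q', hq', smul_right_injective _ (show (N : ℤ) ≠ 0 by exact_mod_cast hN) ?_⟩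
    show (N : ℤ) • u = (N : ℤ) • act q' v
    rw [e, act_mul, hgv, act_zsmul]
  · rintro _ ⟨x, hx, rfl⟩
    exact hst x hx v hv

theorem mem_orbitLat_smul (c : ℂ) (v w : Fin 2 → ℂ) :
    w ∈ orbitLat (c • v) ↔ ∃ u ∈ orbitLat v, w = c • u := by
  constructor
  · rintro ⟨x, hx, rfl⟩
    exact ⟨act x v, ⟨x, hx, rfl⟩, act_smul x c v⟩
  · rintro ⟨_, ⟨x, hx, rfl⟩, rfl⟩
    exact ⟨x, hx, (act_smul x c v).symm⟩

theorem orbitLat_act {y : Matrix (Fin 2) (Fin 2) ℝ} (hy : y ∈ order) (hd : y.det = 1 ∨ y.det = -1)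
    (v : Fin 2 → ℂ) : orbitLat (act y v) = orbitLat v := by
  obtain ⟨y', hy', e⟩ : ∃ y' ∈ order, y' * y = 1 := by
    rcases hd with h | h
    · exact ⟨_, adjugate_mem hy, by rw [Matrix.adjugate_mul, h, one_smul]⟩
    · exact ⟨_, neg_mem (adjugate_mem hy), by
        rw [Matrix.neg_mul, Matrix.adjugate_mul, h, neg_one_smul, neg_neg]⟩
  refine le_antisymm ?_ ?_
  · rintro _ ⟨x, hx, rfl⟩
    exact ⟨x * y, mul_mem hx hy, (act_mul x y v).symm⟩
  · rintro _ ⟨x, hx, rfl⟩
    exact ⟨x * y', mul_mem hx hy', by rw [← act_mul, mul_assoc, e, mul_one]⟩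

theorem exists_point {v : Fin 2 → ℂ} (hv : 0 < (v 0 * conj (v 1)).im) :
    ∃ z : ℍ, ∃ c : ℂ, c ≠ 0 ∧ v = c • vec z := by
  have h1 : v 1 ≠ 0 := fun h => by simp [h] at hv
  have hz : 0 < (v 0 / v 1).im := by
    have e : v 0 / v 1 = v 0 * conj (v 1) / ((Complex.normSq (v 1) : ℝ) : ℂ) := by
      rw [← Complex.mul_conj, mul_div_mul_right]
      simpa using h1
    rw [e, Complex.div_ofReal_im]
    exact div_pos hv (Complex.normSq_pos.2 h1)
  refine ⟨⟨v 0 / v 1, hz⟩, v 1, h1, funext fun i => ?_⟩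
  fin_cases i <;> simp [vec, mul_div_cancel₀ _ h1]

/-- **The classification.** -/
theorem exists_torusLat (L : Submodule ℤ (Fin 2 → ℂ)) [DiscreteTopology L] [IsZLattice ℝ L]
    (hst : IsStable L) :
    ∃ z : ℍ, ∃ c : ℂ, c ≠ 0 ∧ ∀ v, v ∈ L ↔ ∃ u ∈ torusLat z, v = c • u := by
  obtain ⟨v, hv, rfl⟩ := exists_orbit L hst
  obtain ⟨y, hy, hd, hpos⟩ : ∃ y ∈ order, (y.det = 1 ∨ y.det = -1) ∧
      0 < (act y v 0 * conj (act y v 1)).im := by
    rcases lt_or_gt_of_ne hv with h | h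
    · obtain ⟨y, hy, hd⟩ := exists_det_neg_one
      exact ⟨y, hy, .inr hd, by rw [im_act, hd]; linarith⟩
    · exact ⟨1, one_mem _, .inl det_one, by rw [im_act, det_one, one_mul]; exact h⟩
  obtain ⟨z, c, hc, e⟩ := exists_point hpos
  refine ⟨z, c, hc, fun u => ?_⟩
  rw [← orbitLat_act hy hd v, e]
  exact mem_orbitLat_smul c _ u

theorem vec_smul_sl (g : SL(2, ℝ)) (z : ℍ) :
    jac g z • vec (g • z : ℍ) = act (g : Matrix (Fin 2) (Fin 2) ℝ) (vec z) := by
  funext i
  rw [act_apply, Pi.smul_apply, smul_eq_mul, coe_smul_eq_mob]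
  fin_cases i
  · simp [vec, mob, mul_div_cancel₀ _ (jac_ne_zero g z.im_ne_zero)]
  · simp [vec, jac]

/-- **Homothetic tori correspond to one orbit.** -/
theorem homothetic_iff (z w : ℍ) :
    (∃ c : ℂ, c ≠ 0 ∧ ∀ v, v ∈ torusLat w ↔ ∃ u ∈ torusLat z, v = c • u) ↔
      w ∈ MulAction.orbit orderUnits z := by
  constructor
  · rintro ⟨c, hc, h⟩
    obtain ⟨_, ⟨x, hx, rfl⟩, hw⟩ := (h (vec w)).1 (self_mem_orbitLat _)
    obtain ⟨y, hy, hz⟩ := (h _).2 ⟨vec z, self_mem_orbitLat _, rfl⟩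
    have hyx : y * x = 1 := act_injective (indep_vec z.im_ne_zero) (by
      rw [hw, act_smul] at hz
      rw [act_mul, act_one]
      exact (smul_right_injective _ hc hz).symm)
    have h1 : x.det = 1 := by
      obtain ⟨X, hX⟩ := exists_det hx
      obtain ⟨Y, hY⟩ := exists_det hy
      have e := congrArg Matrix.det hyx
      rw [det_mul, det_one, hX, hY] at e
      have e' : Y * X = 1 := by exact_mod_cast e
      have him := im_act x (vec z)
      have hw' : act x (vec z) = c⁻¹ • vec w := by rw [hw, inv_smul_smul₀ hc]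
      rw [hw', hX] at him
      simp [vec] at him
      rcases Int.eq_one_or_neg_one_of_mul_eq_one' e' with ⟨-, rfl⟩ | ⟨-, rfl⟩
      · simpa using hX
      · exfalso
        have hn := Complex.normSq_pos.2 (inv_ne_zero hc)
        have hpos : 0 < (c⁻¹ * (w : ℂ) * conj c⁻¹).im := by
          rw [show c⁻¹ * (w : ℂ) * conj c⁻¹ = ((Complex.normSq c⁻¹ : ℝ) : ℂ) * w by
            rw [← Complex.mul_conj]; ring, Complex.im_ofReal_mul]
          exact mul_pos hn w.im_pos
        simp at him hpos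
        nlinarith [z.im_pos]
    set g : SL(2, ℝ) := ⟨x, h1⟩
    refine ⟨⟨g, hx⟩, ?_⟩
    show g • z = w
    have e := (vec_smul_sl g z).trans ((eq_inv_smul_iff₀ hc).2 hw.symm)
    have e0 := congrFun e 0
    have e1 := congrFun e 1
    simp [vec] at e0 e1
    rw [UpperHalfPlane.ext_iff]
    rw [e1] at e0
    exact mul_left_cancel₀ (inv_ne_zero hc) e0
  · rintro ⟨γ, rfl⟩
    refine ⟨(jac (γ : SL(2, ℝ)) z)⁻¹, inv_ne_zero (jac_ne_zero _ z.im_ne_zero), fun v => ?_⟩
    have e : vec ((γ • z : ℍ) : ℂ) = (jac (γ : SL(2, ℝ)) z)⁻¹ •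
        act ((γ : SL(2, ℝ)) : Matrix (Fin 2) (Fin 2) ℝ) (vec z) := by
      rw [← vec_smul_sl, inv_smul_smul₀ (jac_ne_zero _ z.im_ne_zero)]
      rfl
    simp only [torusLat]
    rw [e, mem_orbitLat_smul, orbitLat_act γ.2 (.inl (γ : SL(2, ℝ)).prop)]

end FA.QuaternionTori

end
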