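import Fermat.Agent.QuaternionTori.Classification
import Fermat.Agent.QuaternionHecke.Count

/-!
# The isogenies of degree `p ^ 2`

The stable lattices strictly between the lattice at `z` and `p` times it correspond to the classes
of norm `p`, and are homothetic to the lattices at the images of `z` under those.
-/

set_option autoImplicit false
set_option linter.unusedSectionVars false
set_option linter.style.haveILetI false

noncomputable section

open Matrix Set
open UpperHalfPlane hiding I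
open scoped MatrixGroups ComplexConjugate
open FA.Horocycle FA.QuaternionHecke FA.CocompactForms

namespace FA.QuaternionTori

/-- The stable lattices strictly between `p` times the lattice at `z` and the lattice. -/
def between (p : ℕ) (z : ℂ) : Set (Submodule ℤ (Fin 2 → ℂ)) :=
  {L | IsStable L ∧ orbitLat ((p : ℂ) • vec z) < L ∧ L < torusLat z}

/-- The lattice of a class of norm `p`. -/
def classLat (p : ℕ) (z : ℂ) (g : SL(2, ℝ)) : Submodule ℤ (Fin 2 → ℂ) :=
  orbitLat (act (Real.sqrt p • (g : Matrix (Fin 2) (Fin 2) ℝ)) (vec z))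

theorem natCast_smul_vec (p : ℕ) (v : Fin 2 → ℂ) :
    (p : ℂ) • v = act ((p : ℝ) • 1) v := by
  rw [act_smul_real, act_one]
  funext i
  simp [Complex.real_smul]

theorem natCast_smul_one_mem (p : ℕ) : (p : ℝ) • (1 : Matrix (Fin 2) (Fin 2) ℝ) ∈ order := by
  simpa using intCast_smul_mem (one_mem order) (p : ℤ)

variable (p : ℕ) [hp : Fact p.Prime]

theorem classLat_mem {z : ℂ} (hz : z.im ≠ 0) {g : SL(2, ℝ)} (hg : g ∈ normSet p) :
    classLat p z g ∈ between p z := by
  set X := Real.sqrt p • (g : Matrix (Fin 2) (Fin 2) ℝ) with hX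
  have hd : X.det = (p : ℝ) := det_sqrt_smul p g
  have hp0 : (p : ℝ) ≠ 0 := Nat.cast_ne_zero.2 hp.out.ne_zero
  have hp1 : ∀ Y : ℤ, (Y : ℝ) * p ≠ 1 := fun Y e => by
    have e' : Y * p = 1 := by exact_mod_cast e
    rcases Int.eq_one_or_neg_one_of_mul_eq_one' e' with ⟨-, h⟩ | ⟨-, h⟩
    · exact hp.out.ne_one (by exact_mod_cast h)
    · omega
  refine ⟨isStable_orbitLat _, lt_of_le_not_ge ?_ fun h => ?_, lt_of_le_not_ge ?_ fun h => ?_⟩
  · rintro _ ⟨y, hy, rfl⟩
    refine ⟨y * adjugate X, mul_mem hy (adjugate_mem hg), ?_⟩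
    rw [← act_mul, Matrix.mul_assoc, Matrix.adjugate_mul, hd, act_mul, natCast_smul_vec]
  · obtain ⟨y, hy, e⟩ := h (self_mem_orbitLat _)
    rw [natCast_smul_vec, ← act_mul] at e
    obtain ⟨Y, hY⟩ := exists_det hy
    have e2 := congrArg Matrix.det (act_injective (indep_vec hz) e)
    rw [← hX, hd, det_mul, det_smul, det_one, mul_one, hY, Fintype.card_fin] at e2
    exact hp1 Y (mul_right_cancel₀ hp0 (by linear_combination -e2))
  · rintro _ ⟨y, hy, rfl⟩
    exact ⟨y * X, mul_mem hy hg, (act_mul y X _).symm⟩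
  · obtain ⟨y, hy, e⟩ := h (self_mem_orbitLat _)
    rw [← act_mul] at e
    obtain ⟨Y, hY⟩ := exists_det hy
    have e2 := congrArg Matrix.det (act_injective (indep_vec hz) ((act_one _).trans e))
    rw [det_one, det_mul, ← hX, hd, hY] at e2
    exact hp1 Y e2.symm

theorem classLat_injective {z : ℂ} (hz : z.im ≠ 0) :
    Function.Injective fun r : reps p => classLat p z r := fun r s h => by
  haveI : NeZero p := ⟨hp.out.ne_zero⟩
  obtain ⟨y, hy, e⟩ : act (Real.sqrt p • ((r : SL(2, ℝ)) : Matrix (Fin 2) (Fin 2) ℝ)) (vec z) ∈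
      classLat p z s := by
    rw [← show classLat p z r = classLat p z s from h]
    exact self_mem_orbitLat _
  rw [← act_mul] at e
  have e1 := act_injective (indep_vec hz) e
  rw [Matrix.mul_smul] at e1
  have hs : Real.sqrt p ≠ 0 := (Real.sqrt_pos.2 (Nat.cast_pos.2 hp.out.pos)).ne'
  have e2 := smul_right_injective _ hs e1
  have hy1 : y.det = 1 := by
    have e3 := congrArg Matrix.det e2
    rw [det_mul, (r : SL(2, ℝ)).prop, (s : SL(2, ℝ)).prop, mul_one] at e3
    exact e3.symm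
  have hrs : (r : SL(2, ℝ)) * (s : SL(2, ℝ))⁻¹ ∈ orderUnits := by
    obtain ⟨Y, hY⟩ : ∃ Y : SL(2, ℝ), (Y : Matrix (Fin 2) (Fin 2) ℝ) = y := ⟨⟨y, hy1⟩, rfl⟩
    have e4 : (r : SL(2, ℝ)) = Y * (s : SL(2, ℝ)) :=
      Subtype.ext (by rw [SpecialLinearGroup.coe_mul, hY]; exact e2)
    rw [e4, mul_inv_cancel_right, mem_orderUnits, hY]
    exact hy
  obtain ⟨t, -, huniq⟩ := (isTransversal_reps p).2 r ((isTransversal_reps p).1 r r.2)
  exact Subtype.ext ((huniq r ⟨r.2, by rw [mul_inv_cancel]; exact one_mem _⟩).trans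
    (huniq s ⟨s.2, hrs⟩).symm)

theorem exists_class {z : ℂ} {L : Submodule ℤ (Fin 2 → ℂ)} (hL : L ∈ between p z) :
    ∃ r ∈ reps p, L = classLat p z r := by
  haveI : NeZero p := ⟨hp.out.ne_zero⟩
  obtain ⟨hst, h1, h2⟩ := hL
  let I : AddSubgroup (Matrix (Fin 2) (Fin 2) ℝ) :=
    { carrier := {x | x ∈ order ∧ act x (vec z) ∈ L}
      add_mem' := by
        rintro x y ⟨hx, hx'⟩ ⟨hy, hy'⟩
        exact ⟨add_mem hx hy, by rw [act_add]; exact add_mem hx' hy'⟩
      zero_mem' := ⟨zero_mem _, by rw [act_zero]; exact zero_mem _⟩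
      neg_mem' := by
        rintro x ⟨hx, hx'⟩
        exact ⟨neg_mem hx, by rw [act_neg]; exact neg_mem hx'⟩ }
  obtain ⟨g, ⟨hg, hgL⟩, hgen⟩ := exists_generator I (fun x hx => hx.1) fun a ha x hx =>
    ⟨mul_mem ha hx.1, by rw [act_mul]; exact hst a ha _ hx.2⟩
  have hLg : L = orbitLat (act g (vec z)) := by
    refine le_antisymm (fun u hu => ?_) ?_
    · obtain ⟨x, hx, rfl⟩ := h2.le hu
      obtain ⟨q, hq, rfl⟩ := hgen x ⟨hx, hu⟩
      exact ⟨q, hq, act_mul q g _⟩
    · rintro _ ⟨x, hx, rfl⟩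
      exact hst x hx _ hgL
  obtain ⟨v, hv, hvg⟩ := hgen ((p : ℝ) • 1)
    ⟨natCast_smul_one_mem p, by rw [← natCast_smul_vec]; exact h1.le (self_mem_orbitLat _)⟩
  obtain ⟨G, hG⟩ := exists_det hg
  obtain ⟨V, hV⟩ := exists_det hv
  have hGV : V.natAbs * G.natAbs = p ^ 2 := by
    have e := congrArg Matrix.det hvg
    rw [det_smul, det_one, mul_one, det_mul, hV, hG, Fintype.card_fin] at e
    have e' : V * G = (p : ℤ) ^ 2 := by exact_mod_cast e.symm
    rw [← Int.natAbs_mul, e', Int.natAbs_pow, Int.natAbs_natCast]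
  obtain ⟨i, hi, hGi⟩ := (Nat.dvd_prime_pow hp.out).1 (Dvd.intro_left _ hGV)
  interval_cases i
  · refine absurd (hLg.trans (orbitLat_act hg ?_ _)) h2.ne
    rw [pow_zero] at hGi
    rcases Int.natAbs_eq G with h | h <;> rw [hGi] at h <;> simp [hG, h]
  · obtain ⟨w, hw, hwd⟩ := exists_det_neg_one
    obtain ⟨g', hg', hd', e'⟩ : ∃ g' ∈ order, g'.det = (p : ℝ) ∧
        orbitLat (act g' (vec z)) = L := by
      rw [pow_one] at hGi
      rcases Int.natAbs_eq G with h | h <;> rw [hGi] at h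
      · exact ⟨g, hg, by rw [hG, h]; simp, hLg.symm⟩
      · exact ⟨w * g, mul_mem hw hg, by rw [det_mul, hwd, hG, h]; simp, by
          rw [act_mul, orbitLat_act hw (.inr hwd), hLg]⟩
    obtain ⟨g₀, hg₀, e₀⟩ := exists_normSet hg' hd'
    obtain ⟨r, ⟨hr, hrg⟩, -⟩ := (isTransversal_reps p).2 g₀ hg₀
    refine ⟨r, hr, ?_⟩
    rw [← e', classLat]
    conv_rhs => rw [← orbitLat_act hrg (.inl (g₀ * r⁻¹).prop)]
    rw [← act_mul, Matrix.mul_smul, ← SpecialLinearGroup.coe_mul, inv_mul_cancel_right, e₀]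
  · refine absurd ?_ h1.ne
    have hV1 : V.natAbs = 1 := by
      rw [hGi] at hGV
      exact Nat.eq_of_mul_eq_mul_right (pow_pos hp.out.pos 2) (hGV.trans (one_mul _).symm)
    rw [natCast_smul_vec, hvg, act_mul, orbitLat_act hv ?_, hLg]
    rcases Int.natAbs_eq V with h | h <;> rw [hV1] at h <;> simp [hV, h]

/-- **There are `p + 1` of them.** -/
theorem card_between (hp5 : 5 ≤ p) {z : ℂ} (hz : z.im ≠ 0) :
    Nat.card (between p z) = p + 1 := by
  haveI : NeZero p := ⟨hp.out.ne_zero⟩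
  rw [← card_reps_prime p hp5, ← Nat.card_eq_finsetCard]
  refine (Nat.card_eq_of_bijective
    (fun r : reps p => (⟨_, classLat_mem p hz ((isTransversal_reps p).1 r r.2)⟩ : between p z))
    ⟨fun r s h => classLat_injective p hz (congrArg Subtype.val h), fun L => ?_⟩).symm
  obtain ⟨r, hr, e⟩ := exists_class p L.2
  exact ⟨⟨r, hr⟩, Subtype.ext e.symm⟩

/-- **Each is homothetic to the lattice at an image.** -/
theorem exists_image {z : ℍ} {L : Submodule ℤ (Fin 2 → ℂ)} (hL : L ∈ between p z) :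
    ∃ g ∈ normSet p, ∃ c : ℂ, c ≠ 0 ∧
      ∀ v, v ∈ L ↔ ∃ u ∈ torusLat (g • z : ℍ), v = c • u := by
  haveI : NeZero p := ⟨hp.out.ne_zero⟩
  obtain ⟨r, hr, rfl⟩ := exists_class p hL
  have hs : Real.sqrt p ≠ 0 := (Real.sqrt_pos.2 (Nat.cast_pos.2 hp.out.pos)).ne'
  refine ⟨r, (isTransversal_reps p).1 r hr, (Real.sqrt p : ℂ) * jac r z,
    mul_ne_zero (Complex.ofReal_ne_zero.2 hs) (jac_ne_zero _ z.im_ne_zero), fun v => ?_⟩
  rw [classLat, act_smul_real, ← vec_smul_sl, ← smul_assoc,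
    show Real.sqrt p • jac r z = (Real.sqrt p : ℂ) * jac r z from Complex.real_smul]
  exact mem_orbitLat_smul _ _ v

end FA.QuaternionTori

end
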