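import Fermat.Agent.QuaternionHecke.Lattice
import Mathlib.Algebra.Module.ZLattice.Basic

/-!
# The lattices of the order in `ℂ²`

Real matrices act on `ℂ²`; if the two coordinates of `v` are linearly independent over `ℝ`, the
multiples of `v` by the order form a lattice, which is stable under the order.
-/

set_option autoImplicit false
set_option linter.unusedSectionVars false
set_option linter.style.haveILetI false

noncomputable section

open Matrix Set
open scoped MatrixGroups ComplexConjugate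
open FA.Horocycle FA.QuaternionHecke

namespace FA.QuaternionTori

/-- The point `(z, 1)`. -/
def vec (z : ℂ) : Fin 2 → ℂ := ![z, 1]

/-- The action of a real matrix on `ℂ²`. -/
def act (x : Matrix (Fin 2) (Fin 2) ℝ) (v : Fin 2 → ℂ) : Fin 2 → ℂ :=
  x.map (fun t : ℝ => (t : ℂ)) *ᵥ v

theorem act_apply (x : Matrix (Fin 2) (Fin 2) ℝ) (v : Fin 2 → ℂ) (i : Fin 2) :
    act x v i = (x i 0 : ℂ) * v 0 + (x i 1 : ℂ) * v 1 := by
  simp [act, Matrix.mulVec, dotProduct, Fin.sum_univ_two]

theorem act_one (v : Fin 2 → ℂ) : act 1 v = v := by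
  funext i
  fin_cases i <;> simp [act_apply]

theorem act_mul (x y : Matrix (Fin 2) (Fin 2) ℝ) (v : Fin 2 → ℂ) :
    act (x * y) v = act x (act y v) := by
  funext i
  simp only [act_apply, Matrix.mul_apply, Fin.sum_univ_two]
  push_cast
  ring

theorem act_add (x y : Matrix (Fin 2) (Fin 2) ℝ) (v : Fin 2 → ℂ) :
    act (x + y) v = act x v + act y v := by
  funext i
  simp only [act_apply, Matrix.add_apply, Pi.add_apply]
  push_cast
  ring

theorem act_neg (x : Matrix (Fin 2) (Fin 2) ℝ) (v : Fin 2 → ℂ) : act (-x) v = -act x v := by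
  funext i
  simp only [act_apply, Matrix.neg_apply, Pi.neg_apply]
  push_cast
  ring

theorem act_sub (x y : Matrix (Fin 2) (Fin 2) ℝ) (v : Fin 2 → ℂ) :
    act (x - y) v = act x v - act y v := by
  rw [sub_eq_add_neg, act_add, act_neg, sub_eq_add_neg]

theorem act_smul_real (t : ℝ) (x : Matrix (Fin 2) (Fin 2) ℝ) (v : Fin 2 → ℂ) :
    act (t • x) v = t • act x v := by
  funext i
  simp only [act_apply, Matrix.smul_apply, Pi.smul_apply, smul_eq_mul, Complex.real_smul]
  push_cast
  ring

theorem act_add_right (x : Matrix (Fin 2) (Fin 2) ℝ) (v w : Fin 2 → ℂ) :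
    act x (v + w) = act x v + act x w := Matrix.mulVec_add _ _ _

theorem act_smul (x : Matrix (Fin 2) (Fin 2) ℝ) (c : ℂ) (v : Fin 2 → ℂ) :
    act x (c • v) = c • act x v := Matrix.mulVec_smul _ _ _

theorem act_zero (v : Fin 2 → ℂ) : act 0 v = 0 := by
  funext i
  simp [act_apply]

/-- The coordinates are linearly independent over `ℝ`. -/
def Indep (v : Fin 2 → ℂ) : Prop := (v 0 * conj (v 1)).im ≠ 0

theorem indep_vec {z : ℂ} (hz : z.im ≠ 0) : Indep (vec z) := by
  simpa [Indep, vec] using hz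

theorem act_eq_zero {v : Fin 2 → ℂ} (hv : Indep v) {x : Matrix (Fin 2) (Fin 2) ℝ}
    (h : act x v = 0) : x = 0 := by
  have key : ∀ a b : ℝ, (a : ℂ) * v 0 + (b : ℂ) * v 1 = 0 → a = 0 ∧ b = 0 := fun a b e => by
    have hre := congrArg Complex.re e
    have him := congrArg Complex.im e
    simp at hre him
    simp only [Indep, Complex.mul_im, Complex.conj_re, Complex.conj_im] at hv
    constructor <;> refine (mul_eq_zero.1 ?_).resolve_left hv
    · linear_combination (v 1).re * him - (v 1).im * hre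
    · linear_combination (v 0).im * hre - (v 0).re * him
  ext i j
  have e := key _ _ ((act_apply x v i).symm.trans (congrFun h i))
  fin_cases j
  · exact e.1
  · exact e.2

theorem act_injective {v : Fin 2 → ℂ} (hv : Indep v) {x y : Matrix (Fin 2) (Fin 2) ℝ}
    (h : act x v = act y v) : x = y :=
  sub_eq_zero.1 (act_eq_zero hv (by rw [act_sub, h, sub_self]))

/-- The multiples by the order. -/
def orbitLat (v : Fin 2 → ℂ) : Submodule ℤ (Fin 2 → ℂ) where
  carrier := {w | ∃ x ∈ order, w = act x v}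
  add_mem' := by
    rintro _ _ ⟨x, hx, rfl⟩ ⟨y, hy, rfl⟩
    exact ⟨x + y, add_mem hx hy, (act_add x y v).symm⟩
  zero_mem' := ⟨0, zero_mem _, (act_zero v).symm⟩
  smul_mem' := by
    rintro n _ ⟨x, hx, rfl⟩
    exact ⟨(n : ℝ) • x, intCast_smul_mem hx n, by rw [act_smul_real, Int.cast_smul_eq_zsmul]⟩

theorem mem_orbitLat {v w : Fin 2 → ℂ} : w ∈ orbitLat v ↔ ∃ x ∈ order, w = act x v := Iff.rfl

theorem self_mem_orbitLat (v : Fin 2 → ℂ) : v ∈ orbitLat v := ⟨1, one_mem _, (act_one v).symm⟩

/-- The lattice of the torus at `z`. -/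
def torusLat (z : ℂ) : Submodule ℤ (Fin 2 → ℂ) := orbitLat (vec z)

/-- Stability under the order. -/
def IsStable (L : Submodule ℤ (Fin 2 → ℂ)) : Prop := ∀ x ∈ order, ∀ v ∈ L, act x v ∈ L

theorem isStable_orbitLat (v : Fin 2 → ℂ) : IsStable (orbitLat v) := by
  rintro x hx _ ⟨y, hy, rfl⟩
  exact ⟨x * y, mul_mem hx hy, (act_mul x y v).symm⟩

/-- The multiples of `v` in real coordinates with respect to the basis of the order. -/
def realCoord (v : Fin 2 → ℂ) : (Fin 4 → ℝ) →ₗ[ℝ] (Fin 2 → ℂ) where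
  toFun q := act (realQuat (q 0 + q 3 / 2) (q 1 + q 3 / 2) (q 2 + q 3 / 2) (q 3 / 2)) v
  map_add' q r := by
    rw [← act_add, realQuat_add]
    congr 2 <;> simp <;> ring
  map_smul' t q := by
    rw [RingHom.id_apply, ← act_smul_real, smul_realQuat]
    congr 2 <;> simp <;> ring

theorem realCoord_intCast (v : Fin 2 → ℂ) (q : Quad) :
    realCoord v ![(q.1 : ℝ), (q.2.1 : ℝ), (q.2.2.1 : ℝ), (q.2.2.2 : ℝ)] = act (hurMat q) v := rfl

theorem finrank_real : Module.finrank ℝ (Fin 2 → ℂ) = 4 := by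
  simp [Module.finrank_pi_fintype, Complex.finrank_real_complex]

theorem realCoord_injective {v : Fin 2 → ℂ} (hv : Indep v) :
    Function.Injective (realCoord v) := by
  refine (injective_iff_map_eq_zero (realCoord v)).2 fun q hq => ?_
  have h := act_eq_zero hv hq
  have hs : Real.sqrt 3 ≠ 0 := by positivity
  have e00 := congrFun (congrFun h 0) 0
  have e01 := congrFun (congrFun h 0) 1
  have e10 := congrFun (congrFun h 1) 0
  have e11 := congrFun (congrFun h 1) 1
  simp [realQuat] at e00 e01 e10 e11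
  have h3 : q 3 = 0 := by
    have := (mul_eq_zero.1 (show q 3 * Real.sqrt 3 = 0 by linarith)).resolve_right hs
    exact this
  have h2 : q 2 = 0 :=
    (mul_eq_zero.1 (show q 2 * Real.sqrt 3 = 0 by rw [h3] at e00 e11; linarith)).resolve_right hs
  funext i
  fin_cases i <;> simp [h2, h3] at e00 e01 e10 e11 ⊢ <;> linarith

/-- A real basis of `ℂ²` spanning the multiples of `v` over `ℤ`. -/
def torBasis {v : Fin 2 → ℂ} (hv : Indep v) : Module.Basis (Fin 4) ℝ (Fin 2 → ℂ) :=
  Module.Basis.ofEquivFun ((realCoord v).linearEquivOfInjective (realCoord_injective hv)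
    (by rw [Module.finrank_fin_fun, finrank_real])).symm

theorem repr_realCoord {v : Fin 2 → ℂ} (hv : Indep v) (q : Fin 4 → ℝ) (i : Fin 4) :
    (torBasis hv).repr (realCoord v q) i = q i := by
  rw [torBasis, Module.Basis.ofEquivFun_repr_apply]
  exact congrFun (LinearEquiv.symm_apply_apply
    ((realCoord v).linearEquivOfInjective (realCoord_injective hv)
      (by rw [Module.finrank_fin_fun, finrank_real])) q) i

theorem orbitLat_eq_span {v : Fin 2 → ℂ} (hv : Indep v) :
    orbitLat v = Submodule.span ℤ (range (torBasis hv)) := by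
  ext w
  rw [(torBasis hv).mem_span_iff_repr_mem ℤ, mem_orbitLat]
  constructor
  · rintro ⟨x, ⟨q, rfl⟩, rfl⟩ i
    rw [← realCoord_intCast, repr_realCoord]
    fin_cases i
    · exact ⟨q.1, by simp⟩
    · exact ⟨q.2.1, by simp⟩
    · exact ⟨q.2.2.1, by simp⟩
    · exact ⟨q.2.2.2, by simp⟩
  · intro h
    choose n hn using h
    refine ⟨_, ⟨(n 0, n 1, n 2, n 3), rfl⟩, (torBasis hv).ext_elem fun i => ?_⟩
    rw [← realCoord_intCast, repr_realCoord, ← hn]
    fin_cases i <;> simp

theorem discreteTopology_orbitLat {v : Fin 2 → ℂ} (hv : Indep v) :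
    DiscreteTopology (orbitLat v) := by
  rw [orbitLat_eq_span hv]
  infer_instance

theorem span_orbitLat {v : Fin 2 → ℂ} (hv : Indep v) :
    Submodule.span ℝ (orbitLat v : Set (Fin 2 → ℂ)) = ⊤ := by
  rw [orbitLat_eq_span hv]
  exact ZSpan.span_top _

theorem eq_intCast_of_scalar {x : Matrix (Fin 2) (Fin 2) ℝ} (hx : x ∈ order) {t : ℝ}
    (h : x = t • 1) : ∃ n : ℤ, t = n := by
  obtain ⟨q, rfl⟩ := hx
  have hs : Real.sqrt 3 ≠ 0 := by positivity
  have e00 := congrFun (congrFun h 0) 0
  have e01 := congrFun (congrFun h 0) 1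
  have e10 := congrFun (congrFun h 1) 0
  have e11 := congrFun (congrFun h 1) 1
  simp [hurMat, realQuat] at e00 e01 e10 e11
  have h4 : (q.2.2.2 : ℝ) = 0 :=
    (mul_eq_zero.1 (show (q.2.2.2 : ℝ) * Real.sqrt 3 = 0 by linarith)).resolve_right hs
  exact ⟨q.1, by rw [h4] at e00 e11; linarith⟩

end FA.QuaternionTori

end
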