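import Fermat.Agent.QuaternionTori.Lattice

/-!
# The principal polarisation

With `μ = 3 i + j`, `μ ^ 2 = -6`, the form `tr (μ x ȳ) / 6` on the order becomes the imaginary part
of the positive hermitian form `3 v₀ w̄₀ + √3 (v₀ w̄₁ + v₁ w̄₀) + 3 v₁ w̄₁` divided by `6 Im z`.  It
is unimodular, and its involution `x ↦ μ⁻¹ x̄ μ` preserves the order and is positive.
-/

set_option autoImplicit false
set_option linter.unusedSectionVars false
set_option linter.style.haveILetI false

noncomputable section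

open Matrix Set
open scoped MatrixGroups ComplexConjugate
open FA.Horocycle FA.QuaternionHecke

namespace FA.QuaternionTori

/-- The hermitian form. -/
def hermForm (v w : Fin 2 → ℂ) : ℂ :=
  3 * (v 0 * conj (w 0)) + (Real.sqrt 3 : ℂ) * (v 0 * conj (w 1) + v 1 * conj (w 0)) +
    3 * (v 1 * conj (w 1))

/-- The Riemann form at `z`. -/
def riemannForm (z : ℂ) (v w : Fin 2 → ℂ) : ℝ := (hermForm v w).im / (6 * z.im)

theorem riemannForm_add (z : ℂ) (u v w : Fin 2 → ℂ) :
    riemannForm z (u + v) w = riemannForm z u w + riemannForm z v w ∧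
      riemannForm z w (u + v) = riemannForm z w u + riemannForm z w v := by
  simp only [riemannForm, hermForm, Pi.add_apply, map_add, ← add_div, ← Complex.add_im]
  constructor <;> congr 2 <;> ring

theorem riemannForm_smul (z : ℂ) (t : ℝ) (v w : Fin 2 → ℂ) :
    riemannForm z (t • v) w = t * riemannForm z v w := by
  simp only [riemannForm, ← mul_div_assoc, ← Complex.im_ofReal_mul]
  congr 2
  simp only [hermForm, Pi.smul_apply, Complex.real_smul]
  ring

theorem riemannForm_swap (z : ℂ) (v w : Fin 2 → ℂ) :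
    riemannForm z w v = -riemannForm z v w := by
  rw [riemannForm, riemannForm, ← neg_div, ← Complex.conj_im]
  congr 2
  simp only [hermForm, map_add, map_mul, Complex.conj_conj, Complex.conj_ofReal, map_ofNat]
  ring

theorem riemannForm_I_smul (z : ℂ) (v w : Fin 2 → ℂ) :
    riemannForm z (Complex.I • v) (Complex.I • w) = riemannForm z v w := by
  rw [riemannForm, riemannForm]
  congr 2
  simp only [hermForm, Pi.smul_apply, smul_eq_mul, map_mul, Complex.conj_I]
  ring_nf
  simp [Complex.I_sq]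

theorem riemannForm_pos {z : ℂ} (hz : 0 < z.im) {v : Fin 2 → ℂ} (hv : v ≠ 0) :
    0 < riemannForm z (Complex.I • v) v := by
  have hs : Real.sqrt 3 ^ 2 = 3 := Real.sq_sqrt (by norm_num)
  refine div_pos ?_ (by linarith)
  have e : (hermForm (Complex.I • v) v).im =
      Real.sqrt 3 * (((v 0).re + (v 1).re) ^ 2 + ((v 0).im + (v 1).im) ^ 2) +
        (3 - Real.sqrt 3) * ((v 0).re ^ 2 + (v 0).im ^ 2 + (v 1).re ^ 2 + (v 1).im ^ 2) := by
    simp [hermForm]
    ring
  rw [e]
  have h3 : Real.sqrt 3 < 3 := by nlinarith [Real.sqrt_nonneg 3]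
  have hpos : 0 < (v 0).re ^ 2 + (v 0).im ^ 2 + (v 1).re ^ 2 + (v 1).im ^ 2 := by
    by_contra h
    have h0 := sq_nonneg (v 0).re
    have h1 := sq_nonneg (v 0).im
    have h2 := sq_nonneg (v 1).re
    have h4 := sq_nonneg (v 1).im
    refine hv (funext fun i => ?_)
    fin_cases i <;> apply Complex.ext <;> simp <;>
      exact (sq_eq_zero_iff (a := (_ : ℝ))).1 (by linarith)
  have := mul_pos (sub_pos.2 h3) hpos
  positivity

/-- The form in the coordinates of the order. -/
def pairing (p q : Quad) : ℤ :=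
  p.1 * q.2.1 - p.2.1 * q.1 - p.1 * q.2.2.1 + p.2.2.1 * q.1 - p.2.1 * q.2.2.2 +
    p.2.2.2 * q.2.1 + 2 * (p.2.2.1 * q.2.2.2) - 2 * (p.2.2.2 * q.2.2.1)

theorem riemannForm_act {z : ℂ} (hz : z.im ≠ 0) (p q : Quad) :
    riemannForm z (act (hurMat p) (vec z)) (act (hurMat q) (vec z)) = pairing p q := by
  have hs : Real.sqrt 3 ^ 2 = 3 := Real.sq_sqrt (by norm_num)
  have key : ∀ A B C D A' B' C' D' : ℝ,
      (hermForm (act (realQuat A B C D) (vec z)) (act (realQuat A' B' C' D') (vec z))).im =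
        (A * B' - B * A' - A * C' + C * A' - B * D' + D * B' + 3 * (C * D' - D * C')) *
          (6 * z.im) := fun A B C D A' B' C' D' => by
    simp [hermForm, act_apply, vec, realQuat]
    ring_nf
    simp only [hs]
    ring
  rw [riemannForm, div_eq_iff (mul_ne_zero (by norm_num) hz), hurMat, hurMat, key]
  simp only [pairing]
  push_cast
  ring

/-- The involution of the polarisation. -/
def rosati (q : Quad) : Quad :=
  (q.1, -(2 * q.2.1) + 3 * q.2.2.1, -q.2.1 + 2 * q.2.2.1, q.2.2.2)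

theorem riemannForm_rosati (z : ℂ) (q : Quad) (v w : Fin 2 → ℂ) :
    riemannForm z (act (hurMat q) v) w = riemannForm z v (act (hurMat (rosati q)) w) := by
  have hs : Real.sqrt 3 ^ 2 = 3 := Real.sq_sqrt (by norm_num)
  have key : ∀ A B C D : ℝ, (hermForm (act (realQuat A B C D) v) w).im =
      (hermForm v (act (realQuat A (-(2 * B) + 3 * C) (-B + 2 * C) D) w)).im := fun A B C D => by
    simp [hermForm, act_apply, realQuat]
    ring_nf
    simp only [hs]
    ring
  rw [riemannForm, riemannForm, hurMat, key, hurMat]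
  congr 5 <;> simp [rosati] <;> ring

theorem rosati_rosati (q : Quad) : rosati (rosati q) = q := by
  obtain ⟨a, b, c, e⟩ := q
  simp only [rosati, Prod.mk.injEq]
  refine ⟨trivial, ?_, ?_, trivial⟩ <;> ring

theorem rosati_pos (q : Quad) (hq : q ≠ 0) : 0 < (hurMat q * hurMat (rosati q)).trace := by
  have e : (hurMat q * hurMat (rosati q)).trace =
      2 * ((q.1 + q.2.2.2 / 2 : ℝ) ^ 2 +
        2 * ((q.2.1 + q.2.2.2 / 2 : ℝ) - 3 / 2 * (q.2.2.1 + q.2.2.2 / 2)) ^ 2 +
        3 / 2 * (q.2.2.1 + q.2.2.2 / 2 : ℝ) ^ 2 + 3 * (q.2.2.2 / 2 : ℝ) ^ 2) := by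
    simp only [hurMat, rosati, realQuat_mul]
    simp [realQuat, trace_fin_two]
    ring
  rw [e]
  by_contra h
  have h1 := sq_nonneg (q.1 + q.2.2.2 / 2 : ℝ)
  have h2 := sq_nonneg ((q.2.1 + q.2.2.2 / 2 : ℝ) - 3 / 2 * (q.2.2.1 + q.2.2.2 / 2))
  have h3 := sq_nonneg (q.2.2.1 + q.2.2.2 / 2 : ℝ)
  have h4 := sq_nonneg (q.2.2.2 / 2 : ℝ)
  have e4 : (q.2.2.2 : ℝ) = 0 := by
    have := (sq_eq_zero_iff (a := (q.2.2.2 / 2 : ℝ))).1 (by linarith)
    linarith
  have e3 : (q.2.2.1 : ℝ) = 0 := by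
    have := (sq_eq_zero_iff (a := (q.2.2.1 + q.2.2.2 / 2 : ℝ))).1 (by linarith)
    linarith
  have e2 : (q.2.1 : ℝ) = 0 := by
    have := (sq_eq_zero_iff
      (a := (q.2.1 + q.2.2.2 / 2 : ℝ) - 3 / 2 * (q.2.2.1 + q.2.2.2 / 2))).1 (by linarith)
    linarith
  have e1 : (q.1 : ℝ) = 0 := by
    have := (sq_eq_zero_iff (a := (q.1 + q.2.2.2 / 2 : ℝ))).1 (by linarith)
    linarith
  exact hq (Prod.ext (by exact_mod_cast e1) (Prod.ext (by exact_mod_cast e2)
    (Prod.ext (by exact_mod_cast e3) (by exact_mod_cast e4))))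

theorem hurMat_add_smul (p : Quad) (n : ℤ) :
    ((n : ℝ) • hurMat p) = hurMat (n * p.1, n * p.2.1, n * p.2.2.1, n * p.2.2.2) := by
  simp only [hurMat, smul_realQuat]
  push_cast
  congr 1 <;> ring

/-- **The form is unimodular.** -/
theorem exists_unique_dual {z : ℂ} (hz : z.im ≠ 0) (φ : torusLat z →+ ℤ) :
    ∃! u : torusLat z, ∀ w : torusLat z, riemannForm z u w = φ w := by
  have mem : ∀ q : Quad, act (hurMat q) (vec z) ∈ torusLat z := fun q => ⟨_, ⟨q, rfl⟩, rfl⟩
  let e : Quad →+ torusLat z :=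
    { toFun := fun q => ⟨_, mem q⟩
      map_zero' := by simp [hurMat_zero, act_zero]
      map_add' := fun p q => by ext1; simp [hurMat_add, act_add] }
  have he : ∀ w : torusLat z, ∃ q, e q = w := by
    rintro ⟨_, ⟨x, ⟨q, rfl⟩, rfl⟩⟩
    exact ⟨q, rfl⟩
  set f := φ.comp e
  have hf : ∀ q : Quad, f q = q.1 * f (1, 0, 0, 0) + q.2.1 * f (0, 1, 0, 0) +
      q.2.2.1 * f (0, 0, 1, 0) + q.2.2.2 * f (0, 0, 0, 1) := fun q => by
    conv_lhs => rw [show q = q.1 • ((1, 0, 0, 0) : Quad) + q.2.1 • (0, 1, 0, 0) +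
      q.2.2.1 • (0, 0, 1, 0) + q.2.2.2 • (0, 0, 0, 1) by ext <;> simp]
    simp only [map_add, map_zsmul, smul_eq_mul]
  set p : Quad := (2 * f (0, 1, 0, 0) + f (0, 0, 1, 0), f (0, 0, 0, 1) - 2 * f (1, 0, 0, 0),
    f (0, 0, 0, 1) - f (1, 0, 0, 0), -f (0, 1, 0, 0) - f (0, 0, 1, 0))
  refine ⟨e p, fun w => ?_, fun u hu => ?_⟩
  · obtain ⟨q, rfl⟩ := he w
    show riemannForm z (act (hurMat p) (vec z)) (act (hurMat q) (vec z)) = (f q : ℝ)
    rw [riemannForm_act hz, Int.cast_inj, hf q]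
    simp only [pairing, p]
    ring
  · obtain ⟨r, rfl⟩ := he u
    have key : ∀ q, pairing r q = f q := fun q => by
      have := hu (e q)
      rw [show riemannForm z (e r : Fin 2 → ℂ) (e q) = pairing r q from riemannForm_act hz r q]
        at this
      exact_mod_cast this
    have k1 := key (1, 0, 0, 0)
    have k2 := key (0, 1, 0, 0)
    have k3 := key (0, 0, 1, 0)
    have k4 := key (0, 0, 0, 1)
    simp [pairing] at k1 k2 k3 k4
    congr 1
    simp only [p, Prod.ext_iff]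
    omega

end FA.QuaternionTori

end
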